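import Fermat.Agent.S51.Defs

/-!
# S51, component Backsolve (owner: helper10)

FROZEN INTERFACE: the statements below must not change.
-/

set_option autoImplicit false

namespace Fermat.Agent.S51

/-- On the curve `b²ξ³ + 3bξ²(ξ-1)² + (ξ-1)³ = 0` (a model of `X(Γ₁(5) ∩ Γ₀(3))`), the four
values of `ρ = ξ(1-ξ)` coming from rational points of `X₀(15)` force
`t = b - 1/b - 11 ∈ {-25/2, -25/8, -10, -40}` unless `b² - 11b - 1 = 0` (cusp). -/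
theorem backsolve {F : Type*} [Field F] [CharZero F] (b ξ : F) (hb : b ≠ 0)
    (hcusp : b ^ 2 - 11 * b - 1 ≠ 0)
    (hX : b ^ 2 * ξ ^ 3 + 3 * b * ξ ^ 2 * (ξ - 1) ^ 2 + (ξ - 1) ^ 3 = 0)
    (hρ : ξ * (1 - ξ) = 1 / 4 ∨ ξ * (1 - ξ) = -4 / 9 ∨ ξ * (1 - ξ) = -1 ∨ ξ * (1 - ξ) = 1 / 9) :
    b ^ 2 - 11 * b - 1 = (-25 / 2) * b ∨ b ^ 2 - 11 * b - 1 = (-25 / 8) * b ∨
      b ^ 2 - 11 * b - 1 = (-10) * b ∨ b ^ 2 - 11 * b - 1 = (-40) * b := by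
  rcases hρ with h | h | h | h
  · -- ρ = 1/4 : ξ = 1/2, 2b² + 3b - 2 = 0
    left
    have h1 : (2 * ξ - 1) ^ 2 = 0 := by linear_combination (-4 : F) * h
    have h2 : ξ = 1 / 2 := by
      have h3 : 2 * ξ - 1 = 0 := by simpa using h1
      linear_combination (1 / 2 : F) * h3
    subst h2
    linear_combination (8 : F) * hX
  · -- ρ = -4/9 : ξ = 4/3 (b = -1/8) or ξ = -1/3 (b = 8)
    right; left
    have h1 : (3 * ξ - 4) * (3 * ξ + 1) = 0 := by linear_combination (-9 : F) * h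
    rcases mul_eq_zero.mp h1 with h2 | h2
    · have h3 : ξ = 4 / 3 := by linear_combination (1 / 3 : F) * h2
      subst h3
      have h4 : (8 * b + 1) ^ 2 = 0 := by linear_combination (27 : F) * hX
      have h5 : 8 * b + 1 = 0 := by simpa using h4
      have h6 : b = -1 / 8 := by linear_combination (1 / 8 : F) * h5
      subst h6
      norm_num
    · have h3 : ξ = -1 / 3 := by linear_combination (1 / 3 : F) * h2
      subst h3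
      have h4 : (b - 8) ^ 2 = 0 := by linear_combination (-27 : F) * hX
      have h5 : b - 8 = 0 := by simpa using h4
      have h6 : b = 8 := by linear_combination h5
      subst h6
      norm_num
  · -- ρ = -1 : (b² - 11b - 1)(b² - b - 1) = 0
    right; right; left
    have hg : ξ ^ 2 - ξ + -1 = 0 := by linear_combination (-1 : F) * h
    have h0 : (b ^ 2 - 11 * b - 1) * (b ^ 2 - b - 1) = 0 := by
      linear_combination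
        (b^2*ξ^3 - 3*b^2*ξ^2 + 3*b^2*ξ - b^2 - 3*b*ξ^4 + 6*b*ξ^3 - 3*b*ξ^2 + ξ^3) * hX
        - (b^4*ξ^4 - 2*b^4*ξ^3 + 2*b^4*ξ^2 - b^4*ξ + b^4 - 9*b^3*ξ^4 + 18*b^3*ξ^3 - 21*b^3*ξ^2 + 12*b^3*ξ - 12*b^3 - 9*b^2*ξ^6 + 27*b^2*ξ^5 - 34*b^2*ξ^4 + 23*b^2*ξ^3 - 5*b^2*ξ^2 - 2*b^2*ξ + 8*b^2 + 9*b*ξ^4 - 18*b*ξ^3 + 21*b*ξ^2 - 12*b*ξ + 12*b + ξ^4 - 2*ξ^3 + 2*ξ^2 - ξ + 1) * hg
    rcases mul_eq_zero.mp h0 with h1 | h1
    · exact absurd h1 hcusp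
    · linear_combination h1
  · -- ρ = 1/9 : (b² - 11b - 1)(b² + 29b - 1) = 0
    right; right; right
    have hg : ξ ^ 2 - ξ + 1 / 9 = 0 := by linear_combination (-1 : F) * h
    have h0 : (b ^ 2 - 11 * b - 1) * (b ^ 2 + 29 * b - 1) = 0 := by
      linear_combination
        (-729*b^2*ξ^3 + 2187*b^2*ξ^2 - 2187*b^2*ξ + 729*b^2 + 2187*b*ξ^4 - 4374*b*ξ^3 + 2187*b*ξ^2 - 729*ξ^3) * hX
        - (-729*b^4*ξ^4 + 1458*b^4*ξ^3 - 648*b^4*ξ^2 - 81*b^4*ξ - 9*b^4 + 6561*b^3*ξ^4 - 13122*b^3*ξ^3 + 8019*b^3*ξ^2 - 1458*b^3*ξ - 162*b^3 + 6561*b^2*ξ^6 - 19683*b^2*ξ^5 + 17496*b^2*ξ^4 - 2187*b^2*ξ^3 - 8505*b^2*ξ^2 + 6318*b^2*ξ - 3672*b^2 - 6561*b*ξ^4 + 13122*b*ξ^3 - 8019*b*ξ^2 + 1458*b*ξ + 162*b - 729*ξ^4 + 1458*ξ^3 - 648*ξ^2 - 81*ξ - 9) * hg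
    rcases mul_eq_zero.mp h0 with h1 | h1
    · exact absurd h1 hcusp
    · linear_combination h1

end Fermat.Agent.S51
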