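import Mathlib
import Fermat.Prelude.Def_FLTPrelim_ModularRep

/-!
# S51: shared definitions

`Spoly W x = 4x³ + b₂x² + 2b₄x + b₆` (equal to `(2y + a₁x + a₃)²` on the curve),
`Rpoly W x = x⁴ - b₄x² - 2b₆x - b₈` (duplication numerator: `x(2P) * Spoly x = Rpoly x`),
`psi3 W x = 3x⁴ + b₂x³ + 3b₄x² + 3b₆x + b₈ = x * Spoly x - Rpoly x` (3-division polynomial),
`px P` = the x-coordinate of a point (junk value `0` at infinity).
-/

set_option autoImplicit false

namespace Fermat.Agent.S51

open WeierstrassCurve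

/-- The algebraic closure of `ℚ` used in the frozen statement. -/
abbrev Kbar : Type := AlgebraicClosure ℚ

/-- `S(x) = 4x³ + b₂x² + 2b₄x + b₆`. -/
def Spoly {F : Type*} [CommRing F] (W : WeierstrassCurve F) (x : F) : F :=
  4 * x ^ 3 + W.b₂ * x ^ 2 + 2 * W.b₄ * x + W.b₆

/-- `R(x) = x⁴ - b₄x² - 2b₆x - b₈`. -/
def Rpoly {F : Type*} [CommRing F] (W : WeierstrassCurve F) (x : F) : F :=
  x ^ 4 - W.b₄ * x ^ 2 - 2 * W.b₆ * x - W.b₈

/-- `ψ₃(x) = 3x⁴ + b₂x³ + 3b₄x² + 3b₆x + b₈`. -/
def psi3 {F : Type*} [CommRing F] (W : WeierstrassCurve F) (x : F) : F :=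
  3 * x ^ 4 + W.b₂ * x ^ 3 + 3 * W.b₄ * x ^ 2 + 3 * W.b₆ * x + W.b₈

/-- The x-coordinate of a point of a Weierstrass curve (junk value `0` at infinity). -/
def px {F : Type*} [CommRing F] {W : WeierstrassCurve.Affine F} : W.Point → F
  | .zero => 0
  | .some x _ _ => x

/-- The points of `E` over `Kbar`, in exactly the form used by the frozen definitions
(`(E⁄Kbar).Point`), so that the Galois action instances of the Prelude apply. -/
abbrev PtK (E : WeierstrassCurve ℚ) : Type :=
  (WeierstrassCurve.Affine.baseChange E Kbar).Point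

theorem psi3_eq {F : Type*} [CommRing F] (W : WeierstrassCurve F) (x : F) :
    psi3 W x = x * Spoly W x - Rpoly W x := by
  simp only [psi3, Spoly, Rpoly]; ring

theorem Spoly_map {F G : Type*} [CommRing F] [CommRing G] (W : WeierstrassCurve F) (f : F →+* G)
    (x : F) : Spoly (W.map f) (f x) = f (Spoly W x) := by
  simp only [Spoly, map_b₂, map_b₄, map_b₆, map_add, map_mul, map_pow, map_ofNat]

theorem Rpoly_map {F G : Type*} [CommRing F] [CommRing G] (W : WeierstrassCurve F) (f : F →+* G)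
    (x : F) : Rpoly (W.map f) (f x) = f (Rpoly W x) := by
  simp only [Rpoly, map_b₄, map_b₆, map_b₈, map_sub, map_mul, map_pow, map_ofNat]

theorem psi3_map {F G : Type*} [CommRing F] [CommRing G] (W : WeierstrassCurve F) (f : F →+* G)
    (x : F) : psi3 (W.map f) (f x) = f (psi3 W x) := by
  simp only [psi3, map_b₂, map_b₄, map_b₆, map_b₈, map_add, map_mul, map_pow, map_ofNat]

end Fermat.Agent.S51
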