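import Fermat.Agent.S51.Defs

/-!
# S51, component GaloisLine (owner: helper9)

Galois action on points of `E` over `Kbar = AlgebraicClosure ℚ` and the fixed field of the
absolute Galois group.
FROZEN INTERFACE: the statements below must not change.
-/

set_option autoImplicit false

namespace Fermat.Agent.S51

open WeierstrassCurve

/-- The Galois action is coordinatewise. -/
theorem px_smul (E : WeierstrassCurve ℚ) (σ : Kbar ≃ₐ[ℚ] Kbar) (P : PtK E) :
    px (σ • P) = σ (px P) := by
  rcases P with _ | ⟨x, y, h⟩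
  · exact (map_zero σ).symm
  · rfl

theorem smul_nsmul (E : WeierstrassCurve ℚ) (σ : Kbar ≃ₐ[ℚ] Kbar) (n : ℕ) (P : PtK E) :
    σ • (n • P) = n • (σ • P) :=
  map_nsmul (Affine.Point.map (W' := E) σ.toAlgHom) n P

theorem smul_eq_zero_iff (E : WeierstrassCurve ℚ) (σ : Kbar ≃ₐ[ℚ] Kbar) (P : PtK E) :
    σ • P = 0 ↔ P = 0 := by
  constructor
  · intro h
    have : σ⁻¹ • (σ • P) = σ⁻¹ • (0 : PtK E) := by rw [h]
    rw [inv_smul_smul] at this
    exact this
  · rintro rfl
    rfl

/-- `Kbar` is an algebraic closure of `ℚ` for the `ℚ`-algebra structure used in the frozen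
statement (which is `DivisionRing.toRatAlgebra`, not `AlgebraicClosure.instAlgebra`). -/
theorem isAlgClosure_Kbar : IsAlgClosure ℚ Kbar := by
  have key : ∀ a : Algebra ℚ (AlgebraicClosure ℚ), a = AlgebraicClosure.instAlgebra ℚ →
      @IsAlgClosure ℚ (AlgebraicClosure ℚ) _ _ a _ := by
    intro a ha
    subst ha
    infer_instance
  exact key _ (Subsingleton.elim _ _)

theorem isGalois_Kbar : IsGalois ℚ Kbar :=
  have := isAlgClosure_Kbar
  IsAlgClosure.isGalois ℚ Kbar

/-- The fixed field of the absolute Galois group is `ℚ`. -/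
theorem exists_rat_of_fixed (x : Kbar) (h : ∀ σ : Kbar ≃ₐ[ℚ] Kbar, σ x = x) :
    ∃ q : ℚ, algebraMap ℚ Kbar q = x := by
  have : IsGalois ℚ Kbar := isGalois_Kbar
  exact (InfiniteGalois.mem_range_algebraMap_iff_fixed (k := ℚ) (K := Kbar) x).mpr h

end Fermat.Agent.S51
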