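import Fermat.Agent.S51.XOnly
import Fermat.Agent.S51.GaloisLine

/-!
# S51, component Descent (owner: helper9)

From the x-coordinate data to a rational point of `X₀(15)`.
FROZEN INTERFACE: the statements below must not change.
-/

set_option autoImplicit false

namespace Fermat.Agent.S51

open WeierstrassCurve

/-- Pure algebra: the square of `Θ' = (b ξ³ - (ξ-1)³/b)(2ξ-1)` in terms of `ρ' = ξ(1-ξ)`. -/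
theorem descent_theta_sq {K : Type*} [Field K] (b ξ : K) (hb : b ≠ 0)
    (hX : b ^ 2 * ξ ^ 3 + 3 * b * ξ ^ 2 * (ξ - 1) ^ 2 + (ξ - 1) ^ 3 = 0) :
    ((b * ξ ^ 3 - (ξ - 1) ^ 3 / b) * (2 * ξ - 1)) ^ 2 =
      (ξ * (1 - ξ)) ^ 3 * (9 * (ξ * (1 - ξ)) + 4) * (1 - 4 * (ξ * (1 - ξ))) := by
  have h1 : (b * ξ ^ 3 - (ξ - 1) ^ 3 / b) * (2 * ξ - 1) * b =
      (b ^ 2 * ξ ^ 3 - (ξ - 1) ^ 3) * (2 * ξ - 1) := by
    field_simp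
  have h2 : (((b * ξ ^ 3 - (ξ - 1) ^ 3 / b) * (2 * ξ - 1)) ^ 2 -
      (ξ * (1 - ξ)) ^ 3 * (9 * (ξ * (1 - ξ)) + 4) * (1 - 4 * (ξ * (1 - ξ)))) * b ^ 2 = 0 := by
    have : (((b * ξ ^ 3 - (ξ - 1) ^ 3 / b) * (2 * ξ - 1)) ^ 2 -
      (ξ * (1 - ξ)) ^ 3 * (9 * (ξ * (1 - ξ)) + 4) * (1 - 4 * (ξ * (1 - ξ)))) * b ^ 2 =
        ((b * ξ ^ 3 - (ξ - 1) ^ 3 / b) * (2 * ξ - 1) * b) ^ 2 -
        (ξ * (1 - ξ)) ^ 3 * (9 * (ξ * (1 - ξ)) + 4) * (1 - 4 * (ξ * (1 - ξ))) * b ^ 2 := by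
      ring
    rw [this, h1]
    linear_combination (2 * ξ - 1) ^ 2 *
      (b ^ 2 * ξ ^ 3 + (ξ - 1) ^ 3 - 3 * b * ξ ^ 2 * (ξ - 1) ^ 2) * hX
  have h3 := (mul_eq_zero.mp h2).resolve_right (pow_ne_zero 2 hb)
  exact sub_eq_zero.mp h3

/-- Galois equivariance of `psi3` for a curve defined over `ℚ`. -/
theorem descent_psi3_equiv (E : WeierstrassCurve ℚ) (σ : Kbar ≃ₐ[ℚ] Kbar) (x : Kbar) :
    σ (psi3 (E.map (algebraMap ℚ Kbar)) x) = psi3 (E.map (algebraMap ℚ Kbar)) (σ x) := by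
  simp only [psi3, map_b₂, map_b₄, map_b₆, map_b₈, map_add, map_mul, map_pow, map_ofNat,
    AlgEquiv.commutes]

/-- Galois equivariance of `Spoly` for a curve defined over `ℚ`. -/
theorem descent_Spoly_equiv (E : WeierstrassCurve ℚ) (σ : Kbar ≃ₐ[ℚ] Kbar) (x : Kbar) :
    σ (Spoly (E.map (algebraMap ℚ Kbar)) x) = Spoly (E.map (algebraMap ℚ Kbar)) (σ x) := by
  simp only [Spoly, map_b₂, map_b₄, map_b₆, map_add, map_mul, map_pow, map_ofNat,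
    AlgEquiv.commutes]

theorem exists_rho_theta (E : WeierstrassCurve ℚ) (hΔ : E.Δ ≠ 0) (x₃ : ℚ) (h3 : psi3 E x₃ = 0)
    (x₁ x₂ : Kbar) (h12 : x₁ ≠ x₂)
    (hS1 : Spoly (E.map (algebraMap ℚ Kbar)) x₁ ≠ 0)
    (hS2 : Spoly (E.map (algebraMap ℚ Kbar)) x₂ ≠ 0)
    (hd1 : x₂ * Spoly (E.map (algebraMap ℚ Kbar)) x₁ = Rpoly (E.map (algebraMap ℚ Kbar)) x₁)
    (hd2 : x₁ * Spoly (E.map (algebraMap ℚ Kbar)) x₂ = Rpoly (E.map (algebraMap ℚ Kbar)) x₂)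
    (hσ : ∀ σ : Kbar ≃ₐ[ℚ] Kbar, (σ x₁ = x₁ ∧ σ x₂ = x₂) ∨ (σ x₁ = x₂ ∧ σ x₂ = x₁)) :
    ∃ (b ξ : Kbar) (ρ Θ : ℚ), b ≠ 0 ∧ b ^ 2 - 11 * b - 1 ≠ 0 ∧
      b ^ 2 * ξ ^ 3 + 3 * b * ξ ^ 2 * (ξ - 1) ^ 2 + (ξ - 1) ^ 3 = 0 ∧
      algebraMap ℚ Kbar ρ = ξ * (1 - ξ) ∧ ρ ≠ 0 ∧
      Θ ^ 2 = ρ ^ 3 * (9 * ρ + 4) * (1 - 4 * ρ) ∧
      algebraMap ℚ Kbar E.c₄ ^ 3 * (b ^ 5 * (b ^ 2 - 11 * b - 1)) =
        algebraMap ℚ Kbar E.Δ * (b ^ 4 - 12 * b ^ 3 + 14 * b ^ 2 + 12 * b + 1) ^ 3 := by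
  have hinj : Function.Injective (algebraMap ℚ Kbar) := (algebraMap ℚ Kbar).injective
  have hΔ' : (E.map (algebraMap ℚ Kbar)).Δ ≠ 0 := by
    rw [WeierstrassCurve.map_Δ]
    exact fun h => hΔ (hinj (by rw [h, map_zero]))
  have h3' : psi3 (E.map (algebraMap ℚ Kbar)) (algebraMap ℚ Kbar x₃) = 0 := by
    rw [psi3_map, h3, map_zero]
  have h21 : x₂ - x₁ ≠ 0 := sub_ne_zero.mpr (Ne.symm h12)
  obtain ⟨b, hb⟩ : ∃ b : Kbar, b = -(psi3 (E.map (algebraMap ℚ Kbar)) x₁) ^ 3 /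
      (Spoly (E.map (algebraMap ℚ Kbar)) x₁) ^ 4 := ⟨_, rfl⟩
  obtain ⟨ξ, hξ⟩ : ∃ ξ : Kbar, ξ = (algebraMap ℚ Kbar x₃ - x₁) / (x₂ - x₁) := ⟨_, rfl⟩
  obtain ⟨hb0, hb11, hξ0, hξ1, hX, hc4, hb'⟩ :=
    xonly_tate (E.map (algebraMap ℚ Kbar)) hΔ' x₁ x₂ (algebraMap ℚ Kbar x₃) h12 hS1 hS2 hd1 hd2
      h3' b ξ hb hξ
  rw [WeierstrassCurve.map_c₄, WeierstrassCurve.map_Δ] at hc4
  -- the swapped quantities
  have hξ' : (algebraMap ℚ Kbar x₃ - x₂) / (x₁ - x₂) = 1 - ξ := by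
    have h12' : x₁ - x₂ ≠ 0 := sub_ne_zero.mpr h12
    rw [hξ]
    field_simp
    ring
  -- action of Galois on `b` and `ξ`
  have hact : ∀ σ : Kbar ≃ₐ[ℚ] Kbar, (σ b = b ∧ σ ξ = ξ) ∨ (σ b = -1 / b ∧ σ ξ = 1 - ξ) := by
    intro σ
    have hσb : σ b = -(psi3 (E.map (algebraMap ℚ Kbar)) (σ x₁)) ^ 3 /
        (Spoly (E.map (algebraMap ℚ Kbar)) (σ x₁)) ^ 4 := by
      rw [hb, map_div₀, map_neg, map_pow, map_pow, descent_psi3_equiv, descent_Spoly_equiv]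
    have hσξ : σ ξ = (algebraMap ℚ Kbar x₃ - σ x₁) / (σ x₂ - σ x₁) := by
      rw [hξ, map_div₀, map_sub, map_sub, AlgEquiv.commutes]
    rcases hσ σ with ⟨h1, h2⟩ | ⟨h1, h2⟩
    · left
      rw [hσb, hσξ, h1, h2]
      exact ⟨hb.symm, hξ.symm⟩
    · right
      rw [hσb, hσξ, h1, h2]
      exact ⟨hb', hξ'⟩
  -- ρ
  obtain ⟨ρ, hρ⟩ : ∃ ρ : ℚ, algebraMap ℚ Kbar ρ = ξ * (1 - ξ) := by
    apply exists_rat_of_fixed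
    intro σ
    rcases hact σ with ⟨-, h2⟩ | ⟨-, h2⟩
    · rw [map_mul, map_sub, map_one, h2]
    · rw [map_mul, map_sub, map_one, h2]; ring
  -- Θ
  obtain ⟨Θ, hΘ⟩ : ∃ Θ : ℚ, algebraMap ℚ Kbar Θ =
      (b * ξ ^ 3 - (ξ - 1) ^ 3 / b) * (2 * ξ - 1) := by
    apply exists_rat_of_fixed
    intro σ
    have hσ2 : σ (2 : Kbar) = 2 := map_ofNat σ 2
    rcases hact σ with ⟨h1, h2⟩ | ⟨h1, h2⟩
    · simp only [map_mul, map_sub, map_one, map_pow, map_div₀, hσ2, h1, h2]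
    · simp only [map_mul, map_sub, map_one, map_pow, map_div₀, hσ2, h1, h2]
      field_simp
      ring
  have hρ0 : ρ ≠ 0 := by
    rintro rfl
    rw [map_zero] at hρ
    rcases mul_eq_zero.mp hρ.symm with h | h
    · exact hξ0 h
    · exact hξ1 (sub_eq_zero.mp h).symm
  have hΘ2 : Θ ^ 2 = ρ ^ 3 * (9 * ρ + 4) * (1 - 4 * ρ) := by
    apply hinj
    have := descent_theta_sq b ξ hb0 hX
    rw [← hΘ, ← hρ] at this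
    simpa only [map_pow, map_mul, map_add, map_sub, map_ofNat, map_one] using this
  exact ⟨b, ξ, ρ, Θ, hb0, hb11, hX, hρ, hρ0, hΘ2, hc4⟩

end Fermat.Agent.S51
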