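import Fermat.Agent.S51.Defs

/-!
# S51, component Endgame (owner: helper10)

FROZEN INTERFACE: the statements below must not change.
-/

set_option autoImplicit false

namespace Fermat.Agent.S51

open WeierstrassCurve

/-- If `A c³ = 5^k B D` with `k ∈ {1, 2}` and `5 ∤ A`, `5 ∤ B`, then `5 ∣ c` and `5 ∣ D`. -/
theorem endgame_five_dvd (c D A B : ℤ) (hA : ¬ (5 : ℤ) ∣ A) (hB : ¬ (5 : ℤ) ∣ B)
    (h : A * c ^ 3 = 5 * B * D ∨ A * c ^ 3 = 25 * B * D) : (5 : ℤ) ∣ c ∧ (5 : ℤ) ∣ D := by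
  have p5 : Prime (5 : ℤ) := by norm_num
  have h1 : (5 : ℤ) ∣ A * c ^ 3 := by
    rcases h with h | h
    · exact ⟨B * D, by rw [h]; ring⟩
    · exact ⟨5 * B * D, by rw [h]; ring⟩
  have h2 : (5 : ℤ) ∣ c := by
    rcases p5.dvd_or_dvd h1 with h3 | h3
    · exact absurd h3 hA
    · exact p5.dvd_of_dvd_pow h3
  refine ⟨h2, ?_⟩
  obtain ⟨e, rfl⟩ := h2
  have h4 : (5 : ℤ) ∣ B * D := by
    rcases h with h | h
    · have h5 : (5 : ℤ) * (B * D) = 5 * (5 * (5 * A * e ^ 3)) := by linear_combination -h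
      exact ⟨5 * A * e ^ 3, mul_left_cancel₀ (by norm_num) h5⟩
    · have h5 : (25 : ℤ) * (B * D) = 25 * (5 * (A * e ^ 3)) := by linear_combination -h
      exact ⟨A * e ^ 3, mul_left_cancel₀ (by norm_num) h5⟩
  rcases p5.dvd_or_dvd h4 with h5 | h5
  · exact absurd h5 hB
  · exact h5

/-- The four `j`-invariants `j = (t²+10t+5)³/t`, `t ∈ {-25/2, -25/8, -10, -40}` have 5-adic
valuation 1 or 2, which is impossible for a semistable integral model (`j = c₄³/Δ`). -/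
theorem semistable_contra (W : WeierstrassCurve ℤ) (hΔ : W.Δ ≠ 0) (hW : W.IsSemistableModel)
    (t : ℚ) (ht : t = -25 / 2 ∨ t = -25 / 8 ∨ t = -10 ∨ t = -40)
    (h : (W.c₄ : ℚ) ^ 3 * t = (W.Δ : ℚ) * (t ^ 2 + 10 * t + 5) ^ 3) : False := by
  have key : ∀ A B : ℤ, ¬ (5 : ℤ) ∣ A → ¬ (5 : ℤ) ∣ B →
      (A * W.c₄ ^ 3 = 5 * B * W.Δ ∨ A * W.c₄ ^ 3 = 25 * B * W.Δ) → False := by
    intro A B hA hB hAB
    obtain ⟨h1, h2⟩ := endgame_five_dvd W.c₄ W.Δ A B hA hB hAB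
    exact hW 5 (by norm_num) (by exact_mod_cast h2) (by exact_mod_cast h1)
  rcases ht with rfl | rfl | rfl | rfl
  · -- t = -25/2 : -32 c₄³ = 5 · 24389 Δ
    refine key (-32) 24389 (by norm_num) (by norm_num) (Or.inl ?_)
    have h' : ((-32 * W.c₄ ^ 3 : ℤ) : ℚ) = ((5 * 24389 * W.Δ : ℤ) : ℚ) := by
      push_cast
      linear_combination (64 / 25 : ℚ) * h
    exact_mod_cast h'
  · -- t = -25/8 : 32768 c₄³ = 5 · 9393931 Δ
    refine key 32768 9393931 (by norm_num) (by norm_num) (Or.inl ?_)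
    have h' : ((32768 * W.c₄ ^ 3 : ℤ) : ℚ) = ((5 * 9393931 * W.Δ : ℤ) : ℚ) := by
      push_cast
      linear_combination (-262144 / 25 : ℚ) * h
    exact_mod_cast h'
  · -- t = -10 : -2 c₄³ = 25 Δ
    refine key (-2) 1 (by norm_num) (by norm_num) (Or.inr ?_)
    have h' : ((-2 * W.c₄ ^ 3 : ℤ) : ℚ) = ((25 * 1 * W.Δ : ℤ) : ℚ) := by
      push_cast
      linear_combination (1 / 5 : ℚ) * h
    exact_mod_cast h'
  · -- t = -40 : -8 c₄³ = 25 · 13997521 Δ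
    refine key (-8) 13997521 (by norm_num) (by norm_num) (Or.inr ?_)
    have h' : ((-8 * W.c₄ ^ 3 : ℤ) : ℚ) = ((25 * 13997521 * W.Δ : ℤ) : ℚ) := by
      push_cast
      linear_combination (1 / 5 : ℚ) * h
    exact_mod_cast h'

end Fermat.Agent.S51
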