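import Fermat.Agent.S51.Defs
import Fermat.Agent.S51.MW.Main

/-!
# S51, component MW (owner: helper10)

Rational points of `Y² = X(X+9)(X-16)` (X₀(15)), in the coordinates `X = -36ρ`, `Y = 36Θ/ρ`.
FROZEN INTERFACE: the statements below must not change.

Proof: the 2-isogeny `x = X(X+9)/(X-16) = 81ρ(1-4ρ)/(9ρ+4)`,
`y = 36Θ(25-(9ρ+4)²)/(ρ(9ρ+4)²)` maps to `y² = x(x-1)(x-81)`, all of whose rational points have
`y = 0` (`MW.eq_zero_of_sq_eq_cub`, an infinite descent).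
-/

set_option autoImplicit false

namespace Fermat.Agent.S51

/-- Mordell–Weil for `X₀(15)`: `Θ² = ρ³(9ρ+4)(1-4ρ)`, `ρ ≠ 0` rational forces
`ρ ∈ {1/4, -4/9, -1, 1/9}`. (With `X = -36ρ`, `Y = 36Θ/ρ`: `Y² = X(X+9)(X-16)`, whose affine
rational points are `(0,0), (16,0), (-9,0), (36,±180), (-4,±20)`.) -/
theorem mw (ρ Θ : ℚ) (hρ : ρ ≠ 0) (h : Θ ^ 2 = ρ ^ 3 * (9 * ρ + 4) * (1 - 4 * ρ)) :
    ρ = 1 / 4 ∨ ρ = -4 / 9 ∨ ρ = -1 ∨ ρ = 1 / 9 := by
  by_cases h16 : 9 * ρ + 4 = 0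
  · right; left; linarith
  have key := MW.eq_zero_of_sq_eq_cub (81 * ρ * (1 - 4 * ρ) / (9 * ρ + 4))
    (36 * Θ * (25 - (9 * ρ + 4) ^ 2) / (ρ * (9 * ρ + 4) ^ 2)) (by
      field_simp
      linear_combination (1296 * (25 - (9 * ρ + 4) ^ 2) ^ 2) * h)
  have h2 : Θ * (25 - (9 * ρ + 4) ^ 2) = 0 := by
    have h3 : ρ * (9 * ρ + 4) ^ 2 ≠ 0 := mul_ne_zero hρ (pow_ne_zero 2 h16)
    rw [div_eq_zero_iff] at key
    rcases key with key | key
    · linarith
    · exact absurd key h3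
  rcases mul_eq_zero.mp h2 with h0 | h0
  · left
    rw [h0] at h
    have h4 : ρ ^ 3 * (9 * ρ + 4) * (1 - 4 * ρ) = 0 := by linarith
    have h5 : 1 - 4 * ρ = 0 := by
      rcases mul_eq_zero.mp h4 with h6 | h6
      · rcases mul_eq_zero.mp h6 with h7 | h7
        · exact absurd h7 (pow_ne_zero 3 hρ)
        · exact absurd h7 h16
      · exact h6
    linarith
  · have h4 : (9 * ρ - 1) * (ρ + 1) = 0 := by linear_combination (-1 / 9 : ℚ) * h0
    rcases mul_eq_zero.mp h4 with h5 | h5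
    · right; right; right; linarith
    · right; right; left; linarith

end Fermat.Agent.S51
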