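import Fermat.Agent.S51.TorsionX
import Fermat.Agent.S51.Descent
import Fermat.Agent.S51.MW
import Fermat.Agent.S51.Backsolve
import Fermat.Agent.S51.Endgame

/-!
# S51: final assembly (owner: helper9)
-/

set_option autoImplicit false

namespace Fermat.Agent.S51

open WeierstrassCurve

theorem main (W : WeierstrassCurve ℤ) (hΔ : W.Δ ≠ 0) (hW : W.IsSemistableModel) :
    W.ModRepIsIrreducible 3 ∨ W.ModRepIsIrreducible 5 := by
  by_contra hcon
  rw [not_or] at hcon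
  obtain ⟨h3, h5⟩ := hcon
  set E : WeierstrassCurve ℚ := W.map (Int.castRingHom ℚ) with hE
  have hΔE : E.Δ ≠ 0 := by
    rw [hE, WeierstrassCurve.map_Δ]
    simpa using hΔ
  have h3' : ¬ Affine.Point.GaloisRepIsIrreducible (K := Kbar) ℚ E 3 := h3
  have h5' : ¬ Affine.Point.GaloisRepIsIrreducible (K := Kbar) ℚ E 5 := h5
  obtain ⟨x₃, hx₃⟩ := exists_x3 E hΔE h3'
  obtain ⟨x₁, x₂, h12, hS1, hS2, hd1, hd2, hσ⟩ := exists_x5 E hΔE h5'
  obtain ⟨b, ξ, ρ, Θ, hb, hcusp, hX, hρξ, hρ0, hΘ, hj⟩ :=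
    exists_rho_theta E hΔE x₃ hx₃ x₁ x₂ h12 hS1 hS2 hd1 hd2 hσ
  have hρ := mw ρ Θ hρ0 hΘ
  have hρ' : ξ * (1 - ξ) = 1 / 4 ∨ ξ * (1 - ξ) = -4 / 9 ∨ ξ * (1 - ξ) = -1 ∨
      ξ * (1 - ξ) = 1 / 9 := by
    rw [← hρξ]
    rcases hρ with h | h | h | h <;> subst h
    · left; simp
    · right; left; simp [map_div₀]
    · right; right; left; simp
    · right; right; right; simp
  have ht := backsolve b ξ hb hcusp hX hρ'
  -- the common endgame: from `b² - 11b - 1 = t b` with `t` rational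
  have key : ∀ t : ℚ, (t = -25 / 2 ∨ t = -25 / 8 ∨ t = -10 ∨ t = -40) →
      b ^ 2 - 11 * b - 1 = algebraMap ℚ Kbar t * b → False := by
    intro t ht' htb
    apply semistable_contra W hΔ hW t ht'
    have hc4 : E.c₄ = (W.c₄ : ℚ) := by rw [hE, WeierstrassCurve.map_c₄]; simp
    have hΔ' : E.Δ = (W.Δ : ℚ) := by rw [hE, WeierstrassCurve.map_Δ]; simp
    rw [← hc4, ← hΔ']
    apply (algebraMap ℚ Kbar).injective
    simp only [map_mul, map_pow, map_add, map_ofNat]
    set T := algebraMap ℚ Kbar t with hT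
    have e1 : b ^ 4 - 12 * b ^ 3 + 14 * b ^ 2 + 12 * b + 1 = b ^ 2 * (T ^ 2 + 10 * T + 5) := by
      linear_combination (b ^ 2 - 1 + (T + 11) * b - 12 * b) * htb
    rw [htb, e1] at hj
    have hb6 : b ^ 6 ≠ 0 := pow_ne_zero 6 hb
    apply mul_left_cancel₀ hb6
    linear_combination hj
  rcases ht with h | h | h | h
  · exact key (-25 / 2) (by simp) (by rw [h]; simp [map_div₀])
  · exact key (-25 / 8) (by simp) (by rw [h]; simp [map_div₀])
  · exact key (-10) (by simp) (by rw [h]; simp)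
  · exact key (-40) (by simp) (by rw [h]; simp)

end Fermat.Agent.S51
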