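import Fermat.Agent.S51.GaloisLine

/-!
# S51, component StableLine (owner: helper9)

Linear algebra extracting a Galois-stable line from the failure of irreducibility.
FROZEN INTERFACE: the statement below must not change.
-/

set_option autoImplicit false

namespace Fermat.Agent.S51

open WeierstrassCurve

/-- Pure linear algebra: three "independent" vectors give an injective map `F³ → M`. -/
theorem stableLine_inj3 {F M : Type*} [Field F] [AddCommGroup M] [Module F M]
    (N : Submodule F M) (P R Q : M) (hP : P ∈ N) (hR : R ∈ N) (hP0 : P ≠ 0)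
    (hR' : ∀ c : F, R ≠ c • P) (hQ : Q ∉ N) :
    Function.Injective (fun t : F × F × F => t.1 • P + t.2.1 • R + t.2.2 • Q) := by
  rintro ⟨a, b, c⟩ ⟨a', b', c'⟩ h
  simp only at h
  have h0 : (a - a') • P + (b - b') • R + (c - c') • Q = 0 := by
    simp only [sub_smul]
    rw [← sub_eq_zero] at h
    rw [← h]
    abel
  have hc : c - c' = 0 := by
    by_contra hc
    apply hQ
    have hQe : Q = (c - c')⁻¹ • (-((a - a') • P + (b - b') • R)) := by
      have h1 : (c - c') • Q = -((a - a') • P + (b - b') • R) := by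
        rw [eq_neg_iff_add_eq_zero, add_comm]
        exact h0
      rw [← h1, smul_smul, inv_mul_cancel₀ hc, one_smul]
    rw [hQe]
    exact N.smul_mem _ (N.neg_mem (N.add_mem (N.smul_mem _ hP) (N.smul_mem _ hR)))
  rw [hc, zero_smul, add_zero] at h0
  have hb : b - b' = 0 := by
    by_contra hb
    apply hR' (-(b - b')⁻¹ * (a - a'))
    have h1 : (b - b') • R = -((a - a') • P) := by
      rw [eq_neg_iff_add_eq_zero, add_comm]
      exact h0
    rw [mul_smul, neg_smul, ← smul_neg, ← h1, smul_smul, inv_mul_cancel₀ hb, one_smul]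
  rw [hb, zero_smul, add_zero] at h0
  have ha : a - a' = 0 := by
    rcases smul_eq_zero.mp h0 with h | h
    · exact h
    · exact absurd h hP0
  rw [sub_eq_zero] at ha hb hc
  rw [ha, hb, hc]

/-- If `E[n]` is nontrivial, has fewer than `n³` elements and is not irreducible, then there is
a point `P` of order `n` spanning a Galois-stable line. -/
theorem exists_stable_line (E : WeierstrassCurve ℚ) (n : ℕ) (hn : n.Prime)
    (hnt : ∃ P : PtK E, P ≠ 0 ∧ n • P = 0)
    (hcard : ∀ s : Finset (PtK E), (∀ P ∈ s, n • P = 0) → s.card < n ^ 3)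
    (hirr : ¬ Affine.Point.GaloisRepIsIrreducible (K := Kbar) ℚ E n) :
    ∃ P : PtK E, P ≠ 0 ∧ n • P = 0 ∧ ∀ σ : Kbar ≃ₐ[ℚ] Kbar, ∃ k : ℕ, σ • P = k • P := by
  classical
  have : Fact n.Prime := ⟨hn⟩
  have hmem : ∀ P : PtK E, P ∈ Submodule.torsionBy ℤ (PtK E) (n : ℤ) ↔ n • P = 0 := by
    intro P
    rw [Submodule.mem_torsionBy_iff, natCast_zsmul]
  obtain ⟨A, hA0, hAn⟩ := hnt
  have hntT : Nontrivial (Submodule.torsionBy ℤ (PtK E) (n : ℤ)) := by
    refine ⟨⟨⟨A, (hmem A).mpr hAn⟩, 0, ?_⟩⟩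
    intro h
    exact hA0 (congrArg Subtype.val h)
  unfold Affine.Point.GaloisRepIsIrreducible at hirr
  rw [not_and] at hirr
  have hirr' := hirr hntT
  push Not at hirr'
  obtain ⟨N, hstab, hbot, htop⟩ := hirr'
  obtain ⟨P₀, hP₀N, hP₀0⟩ := (Submodule.ne_bot_iff N).mp hbot
  obtain ⟨Q₀, hQ₀⟩ : ∃ Q₀, Q₀ ∉ N := by
    by_contra h
    push Not at h
    exact htop (eq_top_iff.mpr fun x _ => h x)
  have hclaim : ∀ R ∈ N, ∃ c : ZMod n, R = c • P₀ := by
    intro R hR
    by_contra hne
    push Not at hne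
    have hinj := stableLine_inj3 N P₀ R Q₀ hP₀N hR hP₀0 hne hQ₀
    have hinj' : Function.Injective
        (fun t : ZMod n × ZMod n × ZMod n =>
          ((t.1 • P₀ + t.2.1 • R + t.2.2 • Q₀ :
            Submodule.torsionBy ℤ (PtK E) (n : ℤ)) : PtK E)) :=
      Subtype.val_injective.comp hinj
    have hc := hcard (Finset.univ.image (fun t : ZMod n × ZMod n × ZMod n =>
          ((t.1 • P₀ + t.2.1 • R + t.2.2 • Q₀ :
            Submodule.torsionBy ℤ (PtK E) (n : ℤ)) : PtK E))) (by
      intro P hP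
      rw [Finset.mem_image] at hP
      obtain ⟨t, -, rfl⟩ := hP
      exact (hmem _).mp (Subtype.property _))
    rw [Finset.card_image_of_injective _ hinj', Finset.card_univ] at hc
    simp only [Fintype.card_prod, ZMod.card] at hc
    apply lt_irrefl (n ^ 3)
    calc n ^ 3 = n * (n * n) := by ring
      _ < n ^ 3 := hc
  refine ⟨(P₀ : PtK E), ?_, (hmem _).mp P₀.property, ?_⟩
  · intro h
    exact hP₀0 (Subtype.ext h)
  · intro σ
    obtain ⟨c, hc⟩ := hclaim (σ • P₀) (hstab σ P₀ hP₀N)
    refine ⟨c.val, ?_⟩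
    have h1 : c • P₀ = c.val • P₀ := by
      rw [← Nat.cast_smul_eq_nsmul (ZMod n), ZMod.natCast_zmod_val]
    rw [h1] at hc
    have h2 := congrArg Subtype.val hc
    rw [AddSubmonoidClass.coe_nsmul] at h2
    exact h2

end Fermat.Agent.S51
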