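import Fermat.Agent.S51.Defs
import Fermat.Agent.S51.TorsionAlg.Base
import Fermat.Agent.S51.TorsionAlg.PolyEval
import Fermat.Agent.S51.TorsionAlg.PolyDeriv
import Fermat.Agent.S51.TorsionAlg.Count

/-!
# S51, component TorsionAlg (owner: helper14)

x-coordinate torsion algebra on Mathlib's `WeierstrassCurve.Affine.Point` over a field.
FROZEN INTERFACE: the statements below must not change.
-/

set_option autoImplicit false

namespace Fermat.Agent.S51

open WeierstrassCurve

variable {F : Type*} [Field F] [DecidableEq F] (W : WeierstrassCurve F)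

theorem px_neg (P : W.toAffine.Point) : px (-P) = px P :=
  px_neg' W P

/-- If `S(x) = 0` and `ψ₃(x) = 0` then `R(x) = 0`; impossible when `Δ ≠ 0`. -/
theorem Spoly_ne_zero_of_psi3_eq_zero (hΔ : W.Δ ≠ 0) {x : F} (h : psi3 W x = 0) :
    Spoly W x ≠ 0 := by
  intro hS
  apply Rpoly_ne_zero_of_Spoly_eq_zero W hΔ hS
  have h' := psi3_eq W x
  rw [h, hS, mul_zero, zero_sub] at h'
  exact neg_eq_zero.mp h'.symm

/-- A nonzero 3-torsion point has `ψ₃(x) = 0`. -/
theorem psi3_px_eq_zero (hΔ : W.Δ ≠ 0) {P : W.toAffine.Point} (hP : P ≠ 0)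
    (h3 : 3 • P = 0) : psi3 W (px P) = 0 := by
  have e : 3 • P = 2 • P + P := succ_nsmul P 2
  rw [e] at h3
  have h2 : 2 • P ≠ 0 := by
    intro h2
    apply hP
    rw [h2, zero_add] at h3
    exact h3
  have h2' : 2 • P = -P := eq_neg_of_add_eq_zero_left h3
  have hd := dup_rel W hP h2
  rw [h2', px_neg'] at hd
  rw [psi3_eq, hd, sub_self]

/-- Conversely, a nonzero point with `ψ₃(x) = 0` is 3-torsion. -/
theorem three_nsmul_eq_zero_of_psi3 (hΔ : W.Δ ≠ 0) {P : W.toAffine.Point} (hP : P ≠ 0)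
    (h : psi3 W (px P) = 0) : 3 • P = 0 := by
  have hS : Spoly W (px P) ≠ 0 := Spoly_ne_zero_of_psi3_eq_zero W hΔ h
  have h2 : 2 • P ≠ 0 := fun h2 => hS ((two_nsmul_eq_zero_iff W hP).mp h2)
  have hd := dup_rel W hP h2
  have hx : px (2 • P) = px P := by
    have e : px P * Spoly W (px P) = Rpoly W (px P) := by
      have h' := psi3_eq W (px P)
      rw [h] at h'
      exact sub_eq_zero.mp h'.symm
    exact mul_right_cancel₀ hS (hd.trans e.symm)
  have e3 : 3 • P = 2 • P + P := succ_nsmul P 2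
  rcases eq_or_eq_neg_of_px_eq W h2 hP hx with h' | h'
  · exfalso
    apply hP
    rw [two_nsmul] at h'
    exact add_left_cancel (a := P) (h'.trans (add_zero P).symm)
  · rw [e3, h', neg_add_cancel]

theorem exists_three_torsion [IsAlgClosed F] [CharZero F] (hΔ : W.Δ ≠ 0) :
    ∃ P : W.toAffine.Point, P ≠ 0 ∧ 3 • P = 0 := by
  have hdeg : (psi3P W).degree ≠ 0 := by
    rw [Polynomial.degree_eq_natDegree (psi3P_ne_zero W), psi3P_natDegree W]
    norm_num
  obtain ⟨x₀, hx₀⟩ := IsAlgClosed.exists_root (psi3P W) hdeg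
  rw [Polynomial.IsRoot.def, psi3P_eval] at hx₀
  obtain ⟨P, hP, hPx⟩ := exists_point W hΔ x₀
  exact ⟨P, hP, three_nsmul_eq_zero_of_psi3 W hΔ hP (hPx ▸ hx₀)⟩

theorem card_roots_psi3P_le [CharZero F] : (psi3P W).roots.toFinset.card ≤ 4 :=
  calc (psi3P W).roots.toFinset.card ≤ Multiset.card (psi3P W).roots :=
        Multiset.toFinset_card_le _
    _ ≤ (psi3P W).natDegree := Polynomial.card_roots' _
    _ = 4 := psi3P_natDegree W

theorem card_three_torsion_le [CharZero F] (hΔ : W.Δ ≠ 0) (s : Finset W.toAffine.Point)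
    (hs : ∀ P ∈ s, 3 • P = 0) : s.card ≤ 9 := by
  have hT := card_roots_psi3P_le W
  have h := card_le_of_px_mem W s (psi3P W).roots.toFinset (fun P hPs hP => by
    rw [Multiset.mem_toFinset, Polynomial.mem_roots (psi3P_ne_zero W), Polynomial.IsRoot.def,
      psi3P_eval]
    exact psi3_px_eq_zero W hΔ hP (hs P hPs))
  omega

/-- For a point of exact order 5, the x-coordinates `x₁ = x(P)`, `x₂ = x(2P)` satisfy the two
duplication relations. -/
theorem five_torsion_rel (hΔ : W.Δ ≠ 0) {P : W.toAffine.Point} (hP : P ≠ 0)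
    (h5 : 5 • P = 0) :
    px P ≠ px (2 • P) ∧ Spoly W (px P) ≠ 0 ∧ Spoly W (px (2 • P)) ≠ 0 ∧
      px (2 • P) * Spoly W (px P) = Rpoly W (px P) ∧
      px P * Spoly W (px (2 • P)) = Rpoly W (px (2 • P)) := by
  have e5 : 5 • P = 2 • (2 • P) + P := by
    rw [← mul_nsmul, ← succ_nsmul]
  have h5' := h5
  rw [e5] at h5'
  have h2 : 2 • P ≠ 0 := by
    intro h2
    apply hP
    rw [h2, nsmul_zero, zero_add] at h5'
    exact h5'
  have h4 : 2 • (2 • P) = -P := eq_neg_of_add_eq_zero_left h5'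
  have h4' : 2 • (2 • P) ≠ 0 := by
    rw [h4]
    exact neg_ne_zero.mpr hP
  have hS1 : Spoly W (px P) ≠ 0 := fun h => h2 ((two_nsmul_eq_zero_iff W hP).mpr h)
  have hS2 : Spoly W (px (2 • P)) ≠ 0 := fun h => h4' ((two_nsmul_eq_zero_iff W h2).mpr h)
  have hd1 := dup_rel W hP h2
  have hd2 := dup_rel W h2 h4'
  rw [h4, px_neg'] at hd2
  refine ⟨?_, hS1, hS2, hd1, hd2⟩
  intro hx
  rcases eq_or_eq_neg_of_px_eq W hP h2 hx with h | h
  · apply hP
    rw [two_nsmul] at h
    exact add_left_cancel (a := P) (h.symm.trans (add_zero P).symm)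
  · -- `P = -(2 • P)`, so `3 • P = 0`, hence `2 • P = 5 • P - 3 • P = 0`
    apply h2
    have h3 : 3 • P = 0 := by
      have e3 : 3 • P = 2 • P + P := succ_nsmul P 2
      rw [e3]
      nth_rewrite 2 [h]
      exact add_neg_cancel _
    have e : 5 • P = 3 • P + 2 • P := by rw [← add_nsmul]
    rw [e, h3, zero_add] at h5
    exact h5

/-- Some root of `N` is not a root of `ψ₃` (`N` has 16 roots counted with multiplicity, and its
roots at roots of `ψ₃` are simple). -/
theorem exists_root_NP_not_psi3 [IsAlgClosed F] [CharZero F] (hΔ : W.Δ ≠ 0) :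
    ∃ x : F, (NP W).eval x = 0 ∧ psi3 W x ≠ 0 := by
  by_contra hcon'
  have hcon : ∀ x : F, (NP W).eval x = 0 → psi3 W x = 0 := fun x hx =>
    by_contra fun h => hcon' ⟨x, hx, h⟩
  have hsimple : ∀ x, (NP W).rootMultiplicity x ≤ 1 := by
    intro x
    by_contra hx
    obtain ⟨h1, h2⟩ :=
      (Polynomial.one_lt_rootMultiplicity_iff_isRoot (NP_ne_zero W)).mp (not_le.mp hx)
    have hpsi := hcon x h1
    rw [Polynomial.IsRoot.def, NP_derivative_eval W hpsi] at h2
    have h3 : (3 : F) ≠ 0 := by norm_num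
    have hS : Spoly W x = 0 :=
      (pow_eq_zero_iff (by norm_num)).mp ((mul_eq_zero.mp h2).resolve_left h3)
    exact Spoly_ne_zero_of_psi3_eq_zero W hΔ hpsi hS
  have hnodup : (NP W).roots.Nodup := by
    rw [Multiset.nodup_iff_count_le_one]
    intro x
    rw [Polynomial.count_roots]
    exact hsimple x
  have hcard : (NP W).roots.toFinset.card = 16 := by
    rw [Multiset.toFinset_card_of_nodup hnodup, IsAlgClosed.card_roots_eq_natDegree,
      NP_natDegree]
  have hsub : (NP W).roots.toFinset ⊆ (psi3P W).roots.toFinset := by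
    intro x hx
    rw [Multiset.mem_toFinset, Polynomial.mem_roots (NP_ne_zero W)] at hx
    rw [Multiset.mem_toFinset, Polynomial.mem_roots (psi3P_ne_zero W), Polynomial.IsRoot.def,
      psi3P_eval]
    exact hcon x hx
  have h1 := Finset.card_le_card hsub
  have h4 := card_roots_psi3P_le W
  omega

theorem exists_five_torsion [IsAlgClosed F] [CharZero F] (hΔ : W.Δ ≠ 0) :
    ∃ P : W.toAffine.Point, P ≠ 0 ∧ 5 • P = 0 := by
  obtain ⟨x₁, hN, hpsi⟩ := exists_root_NP_not_psi3 W hΔ
  obtain ⟨P, hP, hPx⟩ := exists_point W hΔ x₁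
  subst hPx
  refine ⟨P, hP, ?_⟩
  have hS1 : Spoly W (px P) ≠ 0 := by
    intro hS
    apply Rpoly_ne_zero_of_Spoly_eq_zero W hΔ hS
    rw [NP_eval, hS] at hN
    have h4 : Rpoly W (px P) ^ 4 = 0 := by linear_combination hN
    exact (pow_eq_zero_iff (by norm_num)).mp h4
  have h2 : 2 • P ≠ 0 := fun h2 => hS1 ((two_nsmul_eq_zero_iff W hP).mp h2)
  have hd1 := dup_rel W hP h2
  have hN2 := NP_eval_of_dup W hd1
  rw [hN] at hN2
  have hrel : Rpoly W (px (2 • P)) - px P * Spoly W (px (2 • P)) = 0 := by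
    rcases mul_eq_zero.mp hN2.symm with h | h
    · exact absurd ((pow_eq_zero_iff (by norm_num)).mp h) hS1
    · exact h
  have hS2 : Spoly W (px (2 • P)) ≠ 0 := by
    intro hS
    apply Rpoly_ne_zero_of_Spoly_eq_zero W hΔ hS
    rw [hS, mul_zero, sub_zero] at hrel
    exact hrel
  have h4 : 2 • (2 • P) ≠ 0 := fun h4 => hS2 ((two_nsmul_eq_zero_iff W h2).mp h4)
  have hd2 := dup_rel W h2 h4
  have hx : px (2 • (2 • P)) = px P := by
    apply mul_right_cancel₀ hS2
    rw [hd2]
    exact sub_eq_zero.mp hrel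
  rcases eq_or_eq_neg_of_px_eq W h4 hP hx with h | h
  · exfalso
    apply hpsi
    apply psi3_px_eq_zero W hΔ hP
    have e : 2 • (2 • P) = 3 • P + P := by
      rw [← mul_nsmul, ← succ_nsmul]
    rw [e] at h
    exact add_right_cancel (h.trans (zero_add P).symm)
  · have e : 5 • P = 2 • (2 • P) + P := by
      rw [← mul_nsmul, ← succ_nsmul]
    rw [e, h, neg_add_cancel]

theorem card_five_torsion_le [CharZero F] (hΔ : W.Δ ≠ 0) (s : Finset W.toAffine.Point)
    (hs : ∀ P ∈ s, 5 • P = 0) : s.card ≤ 33 := by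
  have hT : (NP W).roots.toFinset.card ≤ 16 :=
    calc (NP W).roots.toFinset.card ≤ Multiset.card (NP W).roots :=
          Multiset.toFinset_card_le _
      _ ≤ (NP W).natDegree := Polynomial.card_roots' _
      _ = 16 := NP_natDegree W
  have h := card_le_of_px_mem W s (NP W).roots.toFinset (fun P hPs hP => by
    rw [Multiset.mem_toFinset, Polynomial.mem_roots (NP_ne_zero W), Polynomial.IsRoot.def]
    obtain ⟨-, -, -, hd1, hd2⟩ := five_torsion_rel W hΔ hP (hs P hPs)
    rw [NP_eval_of_dup W hd1, hd2, sub_self, mul_zero])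
  omega

end Fermat.Agent.S51
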