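import Fermat.Agent.S51.TorsionAlg
import Fermat.Agent.S51.StableLine

/-!
# S51, component TorsionX (owner: helper9)

From the failure of irreducibility of `E[3]`, `E[5]` to x-coordinate data.
FROZEN INTERFACE: the statements below must not change.
-/

set_option autoImplicit false

namespace Fermat.Agent.S51

open WeierstrassCurve

namespace TorsionX

/-- Reduce a multiple of an `n`-torsion element modulo `n`. -/
theorem nsmul_mod {A : Type*} [AddCommGroup A] {P : A} {n : ℕ} (h : n • P = 0) (k : ℕ) :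
    k • P = (k % n) • P := by
  conv_lhs => rw [← Nat.div_add_mod k n]
  rw [add_nsmul, mul_nsmul, h, nsmul_zero, zero_add]

theorem two_nsmul_of_three {A : Type*} [AddCommGroup A] {P : A} (h : 3 • P = 0) :
    2 • P = -P := by
  apply eq_neg_of_add_eq_zero_left
  rw [← succ_nsmul]
  exact h

theorem four_nsmul_of_five {A : Type*} [AddCommGroup A] {P : A} (h : 5 • P = 0) :
    4 • P = -P := by
  apply eq_neg_of_add_eq_zero_left
  rw [← succ_nsmul]
  exact h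

theorem three_nsmul_of_five {A : Type*} [AddCommGroup A] {P : A} (h : 5 • P = 0) :
    3 • P = -((2 : ℕ) • P : A) := by
  apply eq_neg_of_add_eq_zero_left
  rw [← add_nsmul]
  exact h

theorem hΔK (E : WeierstrassCurve ℚ) (hΔ : E.Δ ≠ 0) :
    (E.map (algebraMap ℚ Kbar)).Δ ≠ 0 := by
  rw [WeierstrassCurve.map_Δ]
  simpa using hΔ

theorem px_neg_K (E : WeierstrassCurve ℚ) (Q : PtK E) : px (-Q) = px Q :=
  px_neg (E.map (algebraMap ℚ Kbar)) Q

theorem psi3_px_K (E : WeierstrassCurve ℚ) (hΔ : E.Δ ≠ 0) {P : PtK E} (hP : P ≠ 0)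
    (h3 : 3 • P = 0) : psi3 (E.map (algebraMap ℚ Kbar)) (px P) = 0 :=
  psi3_px_eq_zero (E.map (algebraMap ℚ Kbar)) (hΔK E hΔ) hP h3

theorem five_rel_K (E : WeierstrassCurve ℚ) (hΔ : E.Δ ≠ 0) {P : PtK E} (hP : P ≠ 0)
    (h5 : 5 • P = 0) :
    px P ≠ px (2 • P) ∧ Spoly (E.map (algebraMap ℚ Kbar)) (px P) ≠ 0 ∧
      Spoly (E.map (algebraMap ℚ Kbar)) (px (2 • P)) ≠ 0 ∧
      px (2 • P) * Spoly (E.map (algebraMap ℚ Kbar)) (px P)
        = Rpoly (E.map (algebraMap ℚ Kbar)) (px P) ∧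
      px P * Spoly (E.map (algebraMap ℚ Kbar)) (px (2 • P))
        = Rpoly (E.map (algebraMap ℚ Kbar)) (px (2 • P)) :=
  five_torsion_rel (E.map (algebraMap ℚ Kbar)) (hΔK E hΔ) hP h5

end TorsionX

/-- If `E[3]` is not irreducible, `ψ₃` has a rational root. -/
theorem exists_x3 (E : WeierstrassCurve ℚ) (hΔ : E.Δ ≠ 0)
    (h3 : ¬ Affine.Point.GaloisRepIsIrreducible (K := Kbar) ℚ E 3) :
    ∃ x₃ : ℚ, psi3 E x₃ = 0 := by
  have hΔ' := TorsionX.hΔK E hΔ
  obtain ⟨P, hP, h3P, hσ⟩ := exists_stable_line E 3 Nat.prime_three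
    (exists_three_torsion (E.map (algebraMap ℚ Kbar)) hΔ')
    (fun s hs => lt_of_le_of_lt
      (card_three_torsion_le (E.map (algebraMap ℚ Kbar)) hΔ' s hs) (by norm_num)) h3
  have hfix : ∀ σ : Kbar ≃ₐ[ℚ] Kbar, σ (px P) = px P := by
    intro σ
    obtain ⟨k, hk⟩ := hσ σ
    rw [TorsionX.nsmul_mod h3P k] at hk
    have hlt : k % 3 < 3 := Nat.mod_lt _ (by norm_num)
    rw [← px_smul, hk]
    generalize k % 3 = r at hk hlt
    interval_cases r
    · rw [zero_nsmul] at hk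
      exact absurd ((smul_eq_zero_iff E σ P).mp hk) hP
    · rw [one_nsmul]
    · rw [TorsionX.two_nsmul_of_three h3P]
      exact TorsionX.px_neg_K E P
  obtain ⟨q, hq⟩ := exists_rat_of_fixed _ hfix
  refine ⟨q, ?_⟩
  have h0 := TorsionX.psi3_px_K E hΔ hP h3P
  rw [← hq, psi3_map] at h0
  exact (map_eq_zero (algebraMap ℚ Kbar)).mp h0

/-- If `E[5]` is not irreducible, there are `x₁ = x(P)`, `x₂ = x(2P)` (`P` of order 5 spanning a
Galois-stable line) with `{x₁, x₂}` Galois-stable. -/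
theorem exists_x5 (E : WeierstrassCurve ℚ) (hΔ : E.Δ ≠ 0)
    (h5 : ¬ Affine.Point.GaloisRepIsIrreducible (K := Kbar) ℚ E 5) :
    ∃ x₁ x₂ : Kbar, x₁ ≠ x₂ ∧
      Spoly (E.map (algebraMap ℚ Kbar)) x₁ ≠ 0 ∧ Spoly (E.map (algebraMap ℚ Kbar)) x₂ ≠ 0 ∧
      x₂ * Spoly (E.map (algebraMap ℚ Kbar)) x₁ = Rpoly (E.map (algebraMap ℚ Kbar)) x₁ ∧
      x₁ * Spoly (E.map (algebraMap ℚ Kbar)) x₂ = Rpoly (E.map (algebraMap ℚ Kbar)) x₂ ∧
      ∀ σ : Kbar ≃ₐ[ℚ] Kbar, (σ x₁ = x₁ ∧ σ x₂ = x₂) ∨ (σ x₁ = x₂ ∧ σ x₂ = x₁) := by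
  have hΔ' := TorsionX.hΔK E hΔ
  obtain ⟨P, hP, h5P, hσ⟩ := exists_stable_line E 5 Nat.prime_five
    (exists_five_torsion (E.map (algebraMap ℚ Kbar)) hΔ')
    (fun s hs => lt_of_le_of_lt
      (card_five_torsion_le (E.map (algebraMap ℚ Kbar)) hΔ' s hs) (by norm_num)) h5
  obtain ⟨hne, hS1, hS2, hd1, hd2⟩ :=
    TorsionX.five_rel_K E hΔ hP h5P
  refine ⟨px P, px (2 • P), hne, hS1, hS2, hd1, hd2, ?_⟩
  intro σ
  obtain ⟨k, hk⟩ := hσ σ
  rw [TorsionX.nsmul_mod h5P k] at hk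
  have hlt : k % 5 < 5 := Nat.mod_lt _ (by norm_num)
  have h4 : 4 • P = -P := TorsionX.four_nsmul_of_five h5P
  have h3' : 3 • P = -((2 : ℕ) • P : PtK E) := TorsionX.three_nsmul_of_five h5P
  have hnegx : ∀ Q : PtK E, px (-Q) = px Q := TorsionX.px_neg_K E
  rw [← px_smul, ← px_smul, smul_nsmul, hk]
  generalize k % 5 = r at hk hlt
  interval_cases r
  · rw [zero_nsmul] at hk
    exact absurd ((smul_eq_zero_iff E σ P).mp hk) hP
  · left
    rw [one_nsmul]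
    exact ⟨rfl, rfl⟩
  · right
    refine ⟨rfl, ?_⟩
    rw [← mul_nsmul, show 2 * 2 = 4 from rfl, h4]
    exact hnegx P
  · right
    constructor
    · rw [h3']
      exact hnegx _
    · rw [← mul_nsmul, show 3 * 2 = 5 + 1 from rfl, add_nsmul, h5P, zero_add, one_nsmul]
  · left
    constructor
    · rw [h4]
      exact hnegx _
    · rw [h4, neg_nsmul]
      exact hnegx _
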