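import Fermat.Agent.S51.Defs

/-!
# S51, component XOnly (owner: helper9)

"Tate normal form without changing coordinates": pure field algebra.
FROZEN INTERFACE: the statement of `xonly_tate` must not change.
-/

set_option autoImplicit false

namespace Fermat.Agent.S51

open WeierstrassCurve

/-- Core algebra with opaque (translated) b-invariants. -/
theorem xonly_aux {F : Type*} [Field F] (B2 B4 B6 B8 c4 Δ : F)
    (hrel : 4 * B8 = B2 * B6 - B4 ^ 2)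
    (hc4 : c4 = B2 ^ 2 - 24 * B4)
    (hΔdef : Δ = -B2 ^ 2 * B8 - 8 * B4 ^ 3 - 27 * B6 ^ 2 + 9 * B2 * B4 * B6)
    (d : F) (hd : d ≠ 0) (hB6 : B6 ≠ 0)
    (h1 : B8 = -d * B6) (h2 : d ^ 3 - B4 * d - B6 = 0)
    (b : F) (hb : b = -B8 ^ 3 / B6 ^ 4) :
    b ≠ 0 ∧ b * B6 = d ^ 3 ∧ b * B8 = -d ^ 4 ∧ b * B4 = d ^ 2 * (b - 1) ∧
      b * B2 = d * (b ^ 2 - 6 * b + 1) ∧
      b ^ 2 * c4 = d ^ 2 * (b ^ 4 - 12 * b ^ 3 + 14 * b ^ 2 + 12 * b + 1) ∧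
      b * Δ = d ^ 6 * (b ^ 2 - 11 * b - 1) := by
  have e6 : b * B6 = d ^ 3 := by
    rw [hb, h1]
    field_simp
  have hb0 : b ≠ 0 := by
    intro h0
    rw [h0, zero_mul] at e6
    exact hd (pow_eq_zero_iff (n := 3) (by norm_num) |>.mp e6.symm)
  have e8 : b * B8 = -d ^ 4 := by
    rw [h1]; linear_combination (-d) * e6
  have e4 : b * B4 = d ^ 2 * (b - 1) := by
    apply mul_right_cancel₀ hd
    linear_combination (-b) * h2 - e6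
  have e2 : b * B2 = d * (b ^ 2 - 6 * b + 1) := by
    have hd3 : d ^ 3 ≠ 0 := pow_ne_zero 3 hd
    apply mul_right_cancel₀ hd3
    have : b * B2 * (b * B6) = 4 * b * (b * B8) + (b * B4) ^ 2 := by
      linear_combination (-(b ^ 2)) * hrel
    rw [e6, e8, e4] at this
    linear_combination this
  refine ⟨hb0, e6, e8, e4, e2, ?_, ?_⟩
  · have : b ^ 2 * c4 = (b * B2) ^ 2 - 24 * b * (b * B4) := by rw [hc4]; ring
    rw [this, e2, e4]; ring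
  · have hb2 : b ^ 2 ≠ 0 := pow_ne_zero 2 hb0
    apply mul_left_cancel₀ hb2
    have : b ^ 2 * (b * Δ) = -(b * B2) ^ 2 * (b * B8) - 8 * (b * B4) ^ 3
        - 27 * b * (b * B6) ^ 2 + 9 * (b * B2) * (b * B4) * (b * B6) := by rw [hΔdef]; ring
    rw [this, e2, e4, e6, e8]; ring

/-- `x₁ = x(P)`, `x₂ = x(2P)` for `P` of order 5 (encoded by the two duplication relations),
`x₃` the x-coordinate of a point of order 3. With `b = -ψ₃(x₁)³/S(x₁)⁴` (the Tate normal form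
parameter of `(E, ±P)`) and `ξ = (x₃-x₁)/(x₂-x₁)`: the point `(b, ξ)` lies on
`b²ξ³ + 3bξ²(ξ-1)² + (ξ-1)³ = 0`, `j(E) = c₄(T_b)³/Δ(T_b)`, and swapping `x₁ ↔ x₂` replaces
`b` by `-1/b` (and `ξ` by `1-ξ`). -/
theorem xonly_tate {F : Type*} [Field F] [CharZero F] (W : WeierstrassCurve F) (hΔ : W.Δ ≠ 0)
    (x₁ x₂ x₃ : F) (h12 : x₁ ≠ x₂) (hS1 : Spoly W x₁ ≠ 0) (hS2 : Spoly W x₂ ≠ 0)
    (hd1 : x₂ * Spoly W x₁ = Rpoly W x₁) (hd2 : x₁ * Spoly W x₂ = Rpoly W x₂)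
    (h3 : psi3 W x₃ = 0) (b ξ : F) (hb : b = -(psi3 W x₁) ^ 3 / (Spoly W x₁) ^ 4)
    (hξ : ξ = (x₃ - x₁) / (x₂ - x₁)) :
    b ≠ 0 ∧ b ^ 2 - 11 * b - 1 ≠ 0 ∧ ξ ≠ 0 ∧ ξ ≠ 1 ∧
      b ^ 2 * ξ ^ 3 + 3 * b * ξ ^ 2 * (ξ - 1) ^ 2 + (ξ - 1) ^ 3 = 0 ∧
      W.c₄ ^ 3 * (b ^ 5 * (b ^ 2 - 11 * b - 1)) =
        W.Δ * (b ^ 4 - 12 * b ^ 3 + 14 * b ^ 2 + 12 * b + 1) ^ 3 ∧
      -(psi3 W x₂) ^ 3 / (Spoly W x₂) ^ 4 = -1 / b := by
  -- translated invariants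
  obtain ⟨d, hd_def⟩ : ∃ d : F, d = x₂ - x₁ := ⟨_, rfl⟩
  have hd : d ≠ 0 := by rw [hd_def]; exact sub_ne_zero.mpr (Ne.symm h12)
  obtain ⟨β2, hβ2⟩ : ∃ β2 : F, β2 = W.b₂ + 12 * x₁ := ⟨_, rfl⟩
  obtain ⟨β4, hβ4⟩ : ∃ β4 : F, β4 = W.b₄ + x₁ * W.b₂ + 6 * x₁ ^ 2 := ⟨_, rfl⟩
  have T1 : ∀ x : F, Spoly W x =
      4 * (x - x₁) ^ 3 + β2 * (x - x₁) ^ 2 + 2 * β4 * (x - x₁) + Spoly W x₁ := by
    intro x; rw [hβ2, hβ4]; simp only [Spoly]; ring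
  have T2 : ∀ x : F, psi3 W x = 3 * (x - x₁) ^ 4 + β2 * (x - x₁) ^ 3 + 3 * β4 * (x - x₁) ^ 2
      + 3 * Spoly W x₁ * (x - x₁) + psi3 W x₁ := by
    intro x; rw [hβ2, hβ4]; simp only [Spoly, psi3]; ring
  have T3 : 4 * psi3 W x₁ = β2 * Spoly W x₁ - β4 ^ 2 := by
    rw [hβ2, hβ4]; simp only [Spoly, psi3]
    linear_combination W.b_relation
  have T4 : W.c₄ = β2 ^ 2 - 24 * β4 := by
    rw [hβ2, hβ4]; simp only [WeierstrassCurve.c₄]; ring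
  have T5 : W.Δ = -β2 ^ 2 * psi3 W x₁ - 8 * β4 ^ 3 - 27 * Spoly W x₁ ^ 2
      + 9 * β2 * β4 * Spoly W x₁ := by
    rw [hβ2, hβ4]; simp only [Spoly, psi3, WeierstrassCurve.Δ]
    linear_combination (6 * W.b₂ * x₁ + 36 * x₁ ^ 2) * W.b_relation
  -- relations from the hypotheses
  have R1 : psi3 W x₁ = -d * Spoly W x₁ := by
    have := psi3_eq W x₁
    rw [hd_def]
    linear_combination this + hd1
  have R2 : psi3 W x₂ = d * Spoly W x₂ := by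
    have := psi3_eq W x₂
    rw [hd_def]
    linear_combination this + hd2
  have S2 : Spoly W x₂ = 4 * d ^ 3 + β2 * d ^ 2 + 2 * β4 * d + Spoly W x₁ := by
    rw [hd_def]; exact T1 x₂
  have P2 : psi3 W x₂ = 3 * d ^ 4 + β2 * d ^ 3 + 3 * β4 * d ^ 2 + 3 * Spoly W x₁ * d
      + psi3 W x₁ := by
    rw [hd_def]; exact T2 x₂
  have R3 : d ^ 3 - β4 * d - Spoly W x₁ = 0 := by
    apply mul_left_cancel₀ hd
    rw [mul_zero]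
    linear_combination (-1 : F) * R2 + P2 - d * S2 + R1
  obtain ⟨hb0, e6, e8, e4, e2, ec4, eΔ⟩ :=
    xonly_aux β2 β4 (Spoly W x₁) (psi3 W x₁) W.c₄ W.Δ T3 T4 T5 d hd hS1 R1 R3 b hb
  have hcusp : b ^ 2 - 11 * b - 1 ≠ 0 := by
    intro h0
    rw [h0, mul_zero] at eΔ
    exact hΔ ((mul_eq_zero.mp eΔ).resolve_left hb0)
  -- S(x₂) = d³ b
  have eS2 : Spoly W x₂ = d ^ 3 * b := by
    apply mul_left_cancel₀ hb0
    rw [S2]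
    linear_combination d ^ 2 * e2 + 2 * d * e4 + e6
  have hξd : x₃ - x₁ = ξ * d := by
    rw [hξ, ← hd_def]; field_simp
  have hX : b ^ 2 * ξ ^ 3 + 3 * b * ξ ^ 2 * (ξ - 1) ^ 2 + (ξ - 1) ^ 3 = 0 := by
    have hd4 : d ^ 4 ≠ 0 := pow_ne_zero 4 hd
    apply mul_left_cancel₀ hd4
    rw [mul_zero]
    have P3 := T2 x₃
    rw [h3, hξd] at P3
    linear_combination (-b) * P3 - (ξ * d) ^ 3 * e2 - 3 * (ξ * d) ^ 2 * e4 - 3 * (ξ * d) * e6 - e8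
  refine ⟨hb0, hcusp, ?_, ?_, hX, ?_, ?_⟩
  · -- ξ ≠ 0
    intro h0
    rw [h0, zero_mul, sub_eq_zero] at hξd
    rw [hξd, R1] at h3
    exact (mul_ne_zero (neg_ne_zero.mpr hd) hS1) h3
  · -- ξ ≠ 1
    intro h1
    rw [h1, one_mul, hd_def] at hξd
    have hx : x₃ = x₂ := by linear_combination hξd
    rw [hx, R2] at h3
    exact (mul_ne_zero hd hS2) h3
  · -- j-invariant relation
    have hb6 : b ^ 6 ≠ 0 := pow_ne_zero 6 hb0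
    apply mul_left_cancel₀ hb6
    have e1 : b ^ 6 * (W.c₄ ^ 3 * (b ^ 5 * (b ^ 2 - 11 * b - 1))) =
        (b ^ 2 * W.c₄) ^ 3 * (b ^ 5 * (b ^ 2 - 11 * b - 1)) := by ring
    have e2' : b ^ 6 * (W.Δ * (b ^ 4 - 12 * b ^ 3 + 14 * b ^ 2 + 12 * b + 1) ^ 3) =
        (b * W.Δ) * b ^ 5 * (b ^ 4 - 12 * b ^ 3 + 14 * b ^ 2 + 12 * b + 1) ^ 3 := by ring
    rw [e1, e2', ec4, eΔ]; ring
  · -- swap
    rw [R2, eS2]
    field_simp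

end Fermat.Agent.S51
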